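import Mathlib

/-!
# S55 CORE: level structures and level cohomology in degrees 0, 1, 2

A *level structure* `L : Lev G` on a group `G` is a directed family of finite index subgroups
with a cofinal subfamily of normal subgroups (think: a basis of open subgroups of a profinite
group).  A cochain is a *level cochain* if it is right invariant under some member of `L`.
`H1 L ρ`, `H2 L ρ` are the cohomology groups of level cochains with values in an (unbundled)
representation `ρ : Representation k G M`.  (`H⁰` is `ρ.invariants`.)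
The differentials are given by the same formulas as Mathlib's `d₀₁, d₁₂, d₂₃`.
-/

set_option autoImplicit false

noncomputable section

namespace Fermat.Agent.S55

/-- A level structure on a group. -/
structure Lev (G : Type) [Group G] where
  /-- the basic open subgroups -/
  sets : Set (Subgroup G)
  nonempty : sets.Nonempty
  directed : ∀ U ∈ sets, ∀ V ∈ sets, ∃ W ∈ sets, W ≤ U ⊓ V
  normal : ∀ U ∈ sets, ∃ V ∈ sets, V ≤ U ∧ V.Normal
  finiteIndex : ∀ U ∈ sets, U.FiniteIndex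

namespace Lev

variable {G H : Type} [Group G] [Group H]

/-- A subgroup is open if it contains a level. -/
def IsOpen (L : Lev G) (K : Subgroup G) : Prop := ∃ U ∈ L.sets, U ≤ K

/-- Pull back a level structure along a group homomorphism. -/
def comap (L : Lev G) (f : H →* G) : Lev H where
  sets := (fun U => U.comap f) '' L.sets
  nonempty := L.nonempty.image _
  directed := by
    rintro _ ⟨U, hU, rfl⟩ _ ⟨V, hV, rfl⟩
    obtain ⟨W, hW, hWUV⟩ := L.directed U hU V hV
    refine ⟨W.comap f, ⟨W, hW, rfl⟩, ?_⟩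
    rw [← Subgroup.comap_inf]
    exact Subgroup.comap_mono hWUV
  normal := by
    rintro _ ⟨U, hU, rfl⟩
    obtain ⟨V, hV, hVU, hVn⟩ := L.normal U hU
    exact ⟨V.comap f, ⟨V, hV, rfl⟩, Subgroup.comap_mono hVU, hVn.comap f⟩
  finiteIndex := by
    rintro _ ⟨U, hU, rfl⟩
    have := L.finiteIndex U hU
    show (U.comap f).FiniteIndex
    refine ⟨?_⟩
    rw [Subgroup.index_comap]
    have : U.IsFiniteRelIndex f.range := Subgroup.isFiniteRelIndex_of_finiteIndex
    exact Subgroup.relIndex_ne_zero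

/-- The induced level structure on a subgroup. -/
abbrev sub (L : Lev G) (K : Subgroup G) : Lev K := L.comap K.subtype

/-- `f : H →* G` is continuous for the level structures `LH`, `LG`. -/
def Cont (LH : Lev H) (LG : Lev G) (f : H →* G) : Prop :=
  ∀ U ∈ LG.sets, ∃ V ∈ LH.sets, V ≤ U.comap f

lemma cont_comap (L : Lev G) (f : H →* G) : Cont (L.comap f) L f :=
  fun U hU => ⟨U.comap f, ⟨U, hU, rfl⟩, le_rfl⟩

lemma cont_id (L : Lev G) : Cont L L (MonoidHom.id G) :=
  fun U hU => ⟨U, hU, le_rfl⟩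

end Lev

section cochains

variable {G : Type} [Group G] (L : Lev G)

/-- level 1-cochains -/
def IsLev₁ {X : Type*} (f : G → X) : Prop :=
  ∃ U ∈ L.sets, ∀ g : G, ∀ u ∈ U, f (g * u) = f g

/-- level 2-cochains -/
def IsLev₂ {X : Type*} (f : G × G → X) : Prop :=
  ∃ U ∈ L.sets, ∀ g h : G, ∀ u ∈ U, ∀ v ∈ U, f (g * u, h * v) = f (g, h)

variable {L}

lemma IsLev₁.comp {X Y : Type*} {f : G → X} (hf : IsLev₁ L f) (φ : X → Y) : IsLev₁ L (φ ∘ f) := by
  obtain ⟨U, hU, h⟩ := hf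
  exact ⟨U, hU, fun g u hu => by simp only [Function.comp_apply, h g u hu]⟩

lemma IsLev₂.comp {X Y : Type*} {f : G × G → X} (hf : IsLev₂ L f) (φ : X → Y) :
    IsLev₂ L (φ ∘ f) := by
  obtain ⟨U, hU, h⟩ := hf
  exact ⟨U, hU, fun g g' u hu v hv => by simp only [Function.comp_apply, h g g' u hu v hv]⟩

lemma IsLev₁.map₂ {X Y Z : Type*} {f : G → X} {f' : G → Y} (hf : IsLev₁ L f) (hf' : IsLev₁ L f')
    (φ : X → Y → Z) : IsLev₁ L (fun g => φ (f g) (f' g)) := by
  obtain ⟨U, hU, h⟩ := hf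
  obtain ⟨V, hV, h'⟩ := hf'
  obtain ⟨W, hW, hWUV⟩ := L.directed U hU V hV
  exact ⟨W, hW, fun g u hu => by
    show φ (f (g * u)) (f' (g * u)) = φ (f g) (f' g)
    rw [h g u (hWUV hu).1, h' g u (hWUV hu).2]⟩

lemma IsLev₂.map₂ {X Y Z : Type*} {f : G × G → X} {f' : G × G → Y} (hf : IsLev₂ L f)
    (hf' : IsLev₂ L f') (φ : X → Y → Z) : IsLev₂ L (fun g => φ (f g) (f' g)) := by
  obtain ⟨U, hU, h⟩ := hf
  obtain ⟨V, hV, h'⟩ := hf'
  obtain ⟨W, hW, hWUV⟩ := L.directed U hU V hV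
  exact ⟨W, hW, fun g g' u hu v hv => by
    show φ (f (g * u, g' * v)) (f' (g * u, g' * v)) = φ (f (g, g')) (f' (g, g'))
    rw [h g g' u (hWUV hu).1 v (hWUV hv).1, h' g g' u (hWUV hu).2 v (hWUV hv).2]⟩

variable (L)

lemma isLev₁_const {X : Type*} (x : X) : IsLev₁ L (fun _ : G => x) := by
  obtain ⟨U, hU⟩ := L.nonempty
  exact ⟨U, hU, fun _ _ _ => rfl⟩

lemma isLev₂_const {X : Type*} (x : X) : IsLev₂ L (fun _ : G × G => x) := by
  obtain ⟨U, hU⟩ := L.nonempty
  exact ⟨U, hU, fun _ _ _ _ _ _ => rfl⟩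

variable {L}

lemma IsLev₁.precomp {H : Type} [Group H] {LH : Lev H} {f : H →* G} (hf : Lev.Cont LH L f)
    {X : Type*} {x : G → X} (hx : IsLev₁ L x) : IsLev₁ LH (x ∘ f) := by
  obtain ⟨U, hU, h⟩ := hx
  obtain ⟨V, hV, hVU⟩ := hf U hU
  exact ⟨V, hV, fun g u hu => by
    simp only [Function.comp_apply, map_mul]; exact h _ _ (hVU hu)⟩

lemma IsLev₂.precomp {H : Type} [Group H] {LH : Lev H} {f : H →* G} (hf : Lev.Cont LH L f)
    {X : Type*} {x : G × G → X} (hx : IsLev₂ L x) : IsLev₂ LH (x ∘ Prod.map f f) := by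
  obtain ⟨U, hU, h⟩ := hx
  obtain ⟨V, hV, hVU⟩ := hf U hU
  exact ⟨V, hV, fun g g' u hu v hv => by
    simp only [Function.comp_apply, Prod.map_apply, map_mul]; exact h _ _ _ (hVU hu) _ (hVU hv)⟩

end cochains

section cohomology

variable {k : Type*} [CommRing k] {G : Type} [Group G] (L : Lev G)
variable {M : Type*} [AddCommGroup M] [Module k M] (ρ : Representation k G M)

/-- `ρ` is a discrete module for `L`: every vector is fixed by a level. -/
def IsDiscrete : Prop := ∀ m : M, ∃ U ∈ L.sets, ∀ u ∈ U, ρ u m = m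

variable (k M) in
/-- level 1-cochains as a submodule -/
def C1 : Submodule k (G → M) where
  carrier := {f | IsLev₁ L f}
  add_mem' hf hf' := hf.map₂ hf' (· + ·)
  zero_mem' := isLev₁_const L (0 : M)
  smul_mem' c _ hf := hf.comp (c • ·)

variable (k M) in
/-- level 2-cochains as a submodule -/
def C2 : Submodule k (G × G → M) where
  carrier := {f | IsLev₂ L f}
  add_mem' hf hf' := hf.map₂ hf' (· + ·)
  zero_mem' := isLev₂_const L (0 : M)
  smul_mem' c _ hf := hf.comp (c • ·)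

/-- `(d0 m) g = ρ g m - m` -/
def d0 : M →ₗ[k] (G → M) where
  toFun m g := ρ g m - m
  map_add' x y := by ext g; simp; abel
  map_smul' c x := by ext g; simp [smul_sub]

/-- `(d1 x) (g, h) = ρ g (x h) - x (g * h) + x g` -/
def d1 : (G → M) →ₗ[k] (G × G → M) where
  toFun x p := ρ p.1 (x p.2) - x (p.1 * p.2) + x p.1
  map_add' x y := by ext p; simp; abel
  map_smul' c x := by ext p; simp [smul_sub, smul_add]

/-- `(d2 x) (g, h, j) = ρ g (x (h, j)) - x (g * h, j) + x (g, h * j) - x (g, h)` -/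
def d2 : (G × G → M) →ₗ[k] (G × G × G → M) where
  toFun x p := ρ p.1 (x (p.2.1, p.2.2)) - x (p.1 * p.2.1, p.2.2) + x (p.1, p.2.1 * p.2.2)
    - x (p.1, p.2.1)
  map_add' x y := by ext p; simp; abel
  map_smul' c x := by ext p; simp [smul_sub, smul_add]

@[simp] lemma d0_apply (m : M) (g : G) : d0 ρ m g = ρ g m - m := rfl

@[simp] lemma d1_apply (x : G → M) (g h : G) : d1 ρ x (g, h) = ρ g (x h) - x (g * h) + x g := rfl

@[simp] lemma d2_apply (x : G × G → M) (g h j : G) :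
    d2 ρ x (g, h, j) = ρ g (x (h, j)) - x (g * h, j) + x (g, h * j) - x (g, h) := rfl

/-- level 1-cocycles -/
def Z1 : Submodule k (G → M) := C1 k L M ⊓ LinearMap.ker (d1 ρ)

/-- 1-coboundaries -/
def B1 : Submodule k (G → M) := LinearMap.range (d0 ρ)

/-- level 2-cocycles -/
def Z2 : Submodule k (G × G → M) := C2 k L M ⊓ LinearMap.ker (d2 ρ)

/-- level 2-coboundaries: `d1` of level 1-cochains -/
def B2 : Submodule k (G × G → M) := (C1 k L M).map (d1 ρ)

lemma mem_Z1_iff (x : G → M) :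
    x ∈ Z1 L ρ ↔ IsLev₁ L x ∧ ∀ g h, x (g * h) = ρ g (x h) + x g := by
  refine and_congr Iff.rfl ?_
  rw [SetLike.mem_coe, LinearMap.mem_ker]
  constructor
  · intro h g g'
    have := congrFun h (g, g')
    simp only [d1_apply, Pi.zero_apply] at this
    rw [sub_add_eq_add_sub, sub_eq_zero] at this
    exact this.symm
  · intro h
    ext ⟨g, g'⟩
    simp only [d1_apply, Pi.zero_apply, h g g']
    abel

lemma mem_Z2_iff (x : G × G → M) :
    x ∈ Z2 L ρ ↔ IsLev₂ L x ∧
      ∀ g h j, x (g * h, j) + x (g, h) = ρ g (x (h, j)) + x (g, h * j) := by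
  refine and_congr Iff.rfl ?_
  rw [SetLike.mem_coe, LinearMap.mem_ker]
  constructor
  · intro h g g' g''
    have := congrFun h (g, g', g'')
    simp only [d2_apply, Pi.zero_apply] at this
    have h2 : ρ g (x (g', g'')) + x (g, g' * g'') - (x (g * g', g'') + x (g, g')) = 0 := by
      rw [← this]; abel
    exact (sub_eq_zero.mp h2).symm
  · intro h
    ext ⟨g, g', g''⟩
    simp only [d2_apply, Pi.zero_apply]
    have := h g g' g''
    have h2 : ρ g (x (g', g'')) - x (g * g', g'') + x (g, g' * g'') - x (g, g')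
        = ρ g (x (g', g'')) + x (g, g' * g'') - (x (g * g', g'') + x (g, g')) := by abel
    rw [h2, this, sub_self]

lemma mem_B1_iff (x : G → M) : x ∈ B1 ρ ↔ ∃ m : M, ∀ g, x g = ρ g m - m := by
  constructor
  · rintro ⟨m, rfl⟩; exact ⟨m, fun _ => rfl⟩
  · rintro ⟨m, hm⟩; exact ⟨m, funext fun g => (hm g).symm⟩

lemma mem_B2_iff (x : G × G → M) :
    x ∈ B2 L ρ ↔ ∃ y : G → M, IsLev₁ L y ∧ ∀ g h, x (g, h) = ρ g (y h) - y (g * h) + y g := by
  constructor
  · rintro ⟨y, hy, rfl⟩; exact ⟨y, hy, fun _ _ => rfl⟩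
  · rintro ⟨y, hy, h⟩; exact ⟨y, hy, funext fun ⟨g, g'⟩ => (h g g').symm⟩

/-- `H¹` of level cochains -/
abbrev H1 : Type _ := ↥(Z1 L ρ) ⧸ (B1 ρ).comap (Z1 L ρ).subtype

/-- `H²` of level cochains -/
abbrev H2 : Type _ := ↥(Z2 L ρ) ⧸ (B2 L ρ).comap (Z2 L ρ).subtype

/-- the class of a 1-cocycle -/
abbrev H1π : ↥(Z1 L ρ) →ₗ[k] H1 L ρ := Submodule.mkQ _

/-- the class of a 2-cocycle -/
abbrev H2π : ↥(Z2 L ρ) →ₗ[k] H2 L ρ := Submodule.mkQ _

lemma H1π_eq_zero_iff (x : ↥(Z1 L ρ)) : H1π L ρ x = 0 ↔ (x : G → M) ∈ B1 ρ := by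
  simp [Submodule.Quotient.mk_eq_zero, Submodule.mem_comap]

lemma H2π_eq_zero_iff (x : ↥(Z2 L ρ)) : H2π L ρ x = 0 ↔ (x : G × G → M) ∈ B2 L ρ := by
  simp [Submodule.Quotient.mk_eq_zero, Submodule.mem_comap]

end cohomology

section functoriality

variable {k : Type*} [CommRing k] {G H : Type} [Group G] [Group H] {LG : Lev G} {LH : Lev H}
variable {M N : Type*} [AddCommGroup M] [Module k M] [AddCommGroup N] [Module k N]
variable {ρ : Representation k G M} {σ : Representation k H N}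

/-- A morphism of pairs `(G, ρ) → (H, σ)`: a continuous `f : H →* G` and a compatible
`φ : M →ₗ N`. -/
structure PairHom (LG : Lev G) (LH : Lev H) (ρ : Representation k G M)
    (σ : Representation k H N) where
  /-- the group homomorphism (contravariant) -/
  f : H →* G
  /-- the coefficient map (covariant) -/
  φ : M →ₗ[k] N
  cont : Lev.Cont LH LG f
  compat : ∀ (h : H) (m : M), φ (ρ (f h) m) = σ h (φ m)

namespace PairHom

variable (α : PairHom LG LH ρ σ)

/-- action on 1-cochains -/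
def c1 : (G → M) →ₗ[k] (H → N) where
  toFun x h := α.φ (x (α.f h))
  map_add' x y := by ext; simp
  map_smul' c x := by ext; simp

/-- action on 2-cochains -/
def c2 : (G × G → M) →ₗ[k] (H × H → N) where
  toFun x p := α.φ (x (α.f p.1, α.f p.2))
  map_add' x y := by ext; simp
  map_smul' c x := by ext; simp

@[simp] lemma c1_apply (x : G → M) (h : H) : α.c1 x h = α.φ (x (α.f h)) := rfl

@[simp] lemma c2_apply (x : G × G → M) (h h' : H) :
    α.c2 x (h, h') = α.φ (x (α.f h, α.f h')) := rfl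

lemma c1_isLev {x : G → M} (hx : IsLev₁ LG x) : IsLev₁ LH (α.c1 x) :=
  (hx.precomp α.cont).comp α.φ

lemma c2_isLev {x : G × G → M} (hx : IsLev₂ LG x) : IsLev₂ LH (α.c2 x) :=
  (hx.precomp α.cont).comp α.φ

lemma c1_d0 (m : M) : α.c1 (d0 ρ m) = d0 σ (α.φ m) := by
  ext h; simp [α.compat]

lemma c2_d1 (x : G → M) : α.c2 (d1 ρ x) = d1 σ (α.c1 x) := by
  ext ⟨h, h'⟩; simp [α.compat]

lemma c1_mem_Z1 {x : G → M} (hx : x ∈ Z1 LG ρ) : α.c1 x ∈ Z1 LH σ := by
  rw [mem_Z1_iff] at hx ⊢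
  refine ⟨α.c1_isLev hx.1, fun h h' => ?_⟩
  simp only [c1_apply, map_mul, hx.2, map_add, α.compat]

lemma c2_mem_Z2 {x : G × G → M} (hx : x ∈ Z2 LG ρ) : α.c2 x ∈ Z2 LH σ := by
  rw [mem_Z2_iff] at hx ⊢
  refine ⟨α.c2_isLev hx.1, fun h h' h'' => ?_⟩
  simp only [c2_apply, map_mul, ← map_add, hx.2, ← α.compat]

lemma c1_mem_B1 {x : G → M} (hx : x ∈ B1 ρ) : α.c1 x ∈ B1 σ := by
  obtain ⟨m, rfl⟩ := hx
  exact ⟨α.φ m, (α.c1_d0 m).symm⟩

lemma c2_mem_B2 {x : G × G → M} (hx : x ∈ B2 LG ρ) : α.c2 x ∈ B2 LH σ := by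
  obtain ⟨y, hy, rfl⟩ := hx
  exact ⟨α.c1 y, α.c1_isLev hy, (α.c2_d1 y).symm⟩

/-- the induced map on invariants -/
def H0map : ρ.invariants →ₗ[k] σ.invariants :=
  (α.φ.comp ρ.invariants.subtype).codRestrict _ fun m h => by
    have := m.2 (α.f h)
    simp only [LinearMap.comp_apply, Submodule.subtype_apply]
    rw [← α.compat, this]

/-- the induced map on 1-cocycles -/
def Z1map : ↥(Z1 LG ρ) →ₗ[k] ↥(Z1 LH σ) := α.c1.restrict fun _ hx => α.c1_mem_Z1 hx

/-- the induced map on 2-cocycles -/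
def Z2map : ↥(Z2 LG ρ) →ₗ[k] ↥(Z2 LH σ) := α.c2.restrict fun _ hx => α.c2_mem_Z2 hx

/-- the induced map on `H¹` -/
def H1map : H1 LG ρ →ₗ[k] H1 LH σ :=
  Submodule.mapQ _ _ α.Z1map fun _ hx => α.c1_mem_B1 hx

/-- the induced map on `H²` -/
def H2map : H2 LG ρ →ₗ[k] H2 LH σ :=
  Submodule.mapQ _ _ α.Z2map fun _ hx => α.c2_mem_B2 hx

@[simp] lemma H0map_coe (m : ρ.invariants) : (α.H0map m : N) = α.φ m := rfl

@[simp] lemma Z1map_coe (x : ↥(Z1 LG ρ)) : (α.Z1map x : H → N) = α.c1 x := rfl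

@[simp] lemma Z2map_coe (x : ↥(Z2 LG ρ)) : (α.Z2map x : H × H → N) = α.c2 x := rfl

@[simp] lemma H1map_mk (x : ↥(Z1 LG ρ)) : α.H1map (H1π LG ρ x) = H1π LH σ (α.Z1map x) := rfl

@[simp] lemma H2map_mk (x : ↥(Z2 LG ρ)) : α.H2map (H2π LG ρ x) = H2π LH σ (α.Z2map x) := rfl

end PairHom

/-- coefficient change: an intertwining linear map `φ : M → N` of `G`-representations. -/
def PairHom.ofLinear (L : Lev G) {ρ : Representation k G M} {τ : Representation k G N}
    (φ : M →ₗ[k] N) (hφ : ∀ g m, φ (ρ g m) = τ g (φ m)) : PairHom L L ρ τ where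
  f := MonoidHom.id G
  φ := φ
  cont := L.cont_id
  compat := hφ

/-- restriction along a continuous homomorphism. -/
def PairHom.res (ρ : Representation k G M) (f : H →* G) (hf : Lev.Cont LH LG f) :
    PairHom LG LH ρ (ρ.comp f) where
  f := f
  φ := LinearMap.id
  cont := hf
  compat := fun _ _ => rfl

end functoriality

end Fermat.Agent.S55

end
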